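import Mathlib
import Fermat.Agent.S14.H81.DegreeOne

/-!
# S41 / unit U7 (helper10): degree-one primes that do not split completely

For number fields `K ⊆ M₁, M₂` with `1/[M₁ : K] + 1/[M₂ : K] < 1` there are infinitely many primes
of `K` of prime norm (degree one over `ℚ`) which split completely neither in `M₁` nor in `M₂`
(`exists_degOne_not_split`; one-field version `exists_degOne_not_split_one`).

Proof (only sub-additivity of the prime zeta sums, no Chebotarev): the primes of `K` which split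
completely in `M` carry at most `(1/[M : K]) log (1/(s-1)) + O(1)` of the prime zeta sum of `K`
(each of them has `[M : K]` primes of the same norm above it, and the prime zeta sum of `M` is
`log (1/(s-1)) + O(1)`), while the degree-one primes of `K` carry `log (1/(s-1)) + O(1)`
(landed `S14/H81`).
-/

set_option autoImplicit false

open Filter Topology NumberField Ideal nonZeroDivisors IsDedekindDomain

namespace Fermat.Agent.S41.H10

open Fermat.Agent.S14

section Abstract

variable (K : Type*) [Field K] [NumberField K]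

theorem prime_rpow_le_one (v : HeightOneSpectrum (𝓞 K)) {s : ℝ} (hs : 0 ≤ s) :
    (absNorm v.asIdeal : ℝ) ^ (-s) ≤ 1 := by
  have h1 : (1 : ℝ) ≤ absNorm v.asIdeal := by
    have := H81.two_le_absNorm K v
    exact_mod_cast (by omega : 1 ≤ absNorm v.asIdeal)
  exact Real.rpow_le_one_of_one_le_of_nonpos h1 (by linarith)

/-- Abstract density argument: two sets of primes carrying at most `c₁`, `c₂` of the prime zeta
sum, `c₁ + c₂ < 1`, cannot cover all but finitely many primes of prime norm. -/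
theorem exists_degOne_not_mem (B₁ B₂ : Set (HeightOneSpectrum (𝓞 K))) (c₁ c₂ : ℝ)
    (hc : c₁ + c₂ < 1)
    (h₁ : ∃ C : ℝ, ∀ s : ℝ, 1 < s → s ≤ 2 → ∀ U : Finset (HeightOneSpectrum (𝓞 K)),
      (∀ v ∈ U, v ∈ B₁) →
        ∑ v ∈ U, (absNorm v.asIdeal : ℝ) ^ (-s) ≤ c₁ * Real.log (1 / (s - 1)) + C)
    (h₂ : ∃ C : ℝ, ∀ s : ℝ, 1 < s → s ≤ 2 → ∀ U : Finset (HeightOneSpectrum (𝓞 K)),
      (∀ v ∈ U, v ∈ B₂) →
        ∑ v ∈ U, (absNorm v.asIdeal : ℝ) ^ (-s) ≤ c₂ * Real.log (1 / (s - 1)) + C)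
    (T : Finset (HeightOneSpectrum (𝓞 K))) :
    ∃ v : HeightOneSpectrum (𝓞 K), v ∉ T ∧ (absNorm v.asIdeal).Prime ∧ v ∉ B₁ ∧ v ∉ B₂ := by
  classical
  by_contra hcon
  push Not at hcon
  obtain ⟨C₀, hC₀⟩ := H81.exists_abs_degOneSum_sub_le K
  obtain ⟨C₁, hC₁⟩ := h₁
  obtain ⟨C₂, hC₂⟩ := h₂
  -- the upper bound for the degree-one sum
  have hub : ∀ s : ℝ, 1 < s → s ≤ 2 →
      ∑' v : ↥(H81.degOne K), (absNorm v.1.asIdeal : ℝ) ^ (-s) ≤
        T.card + (c₁ + c₂) * Real.log (1 / (s - 1)) + C₁ + C₂ := by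
    intro s hs1 hs2
    refine Real.tsum_le_of_sum_le (fun _ ↦ by positivity) fun U ↦ ?_
    set U' : Finset (HeightOneSpectrum (𝓞 K)) := U.map (Function.Embedding.subtype _) with hU'
    have hU'mem : ∀ v ∈ U', (absNorm v.asIdeal).Prime := by
      intro v hv
      obtain ⟨w, -, rfl⟩ := Finset.mem_map.mp hv
      exact w.2
    have hsum : ∑ v ∈ U, (absNorm v.1.asIdeal : ℝ) ^ (-s) =
        ∑ v ∈ U', (absNorm v.asIdeal : ℝ) ^ (-s) := by
      rw [hU', Finset.sum_map]
      rfl
    rw [hsum]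
    have e1 := Finset.sum_filter_add_sum_filter_not U' (fun v ↦ v ∈ T)
      (fun v ↦ (absNorm v.asIdeal : ℝ) ^ (-s))
    have e2 := Finset.sum_filter_add_sum_filter_not (U'.filter fun v ↦ ¬ v ∈ T) (fun v ↦ v ∈ B₁)
      (fun v ↦ (absNorm v.asIdeal : ℝ) ^ (-s))
    have b1 : ∑ v ∈ U'.filter (fun v ↦ v ∈ T), (absNorm v.asIdeal : ℝ) ^ (-s) ≤ T.card := by
      calc ∑ v ∈ U'.filter (fun v ↦ v ∈ T), (absNorm v.asIdeal : ℝ) ^ (-s)
          ≤ ∑ _v ∈ U'.filter (fun v ↦ v ∈ T), (1 : ℝ) :=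
            Finset.sum_le_sum fun v _ ↦ prime_rpow_le_one K v (by linarith)
        _ = ((U'.filter (fun v ↦ v ∈ T)).card : ℝ) := by simp
        _ ≤ T.card := by
            have : U'.filter (fun v ↦ v ∈ T) ⊆ T := fun v hv ↦ (Finset.mem_filter.mp hv).2
            exact_mod_cast Finset.card_le_card this
    have b2 := hC₁ s hs1 hs2 ((U'.filter fun v ↦ ¬ v ∈ T).filter fun v ↦ v ∈ B₁)
      (fun v hv ↦ (Finset.mem_filter.mp hv).2)
    have b3 := hC₂ s hs1 hs2 ((U'.filter fun v ↦ ¬ v ∈ T).filter fun v ↦ ¬ v ∈ B₁)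
      (fun v hv ↦ by
        have h1 := Finset.mem_filter.mp hv
        have h2 := Finset.mem_filter.mp h1.1
        exact hcon v h2.2 (hU'mem v h2.1) h1.2)
    linarith
  -- contradiction for `s` close to `1`
  set D : ℝ := T.card + C₀ + C₁ + C₂ with hD
  have hpos : 0 < 1 - (c₁ + c₂) := by linarith
  set X : ℝ := max 0 (D / (1 - (c₁ + c₂))) + 1 with hX
  have hX0 : 0 < X := by
    have := le_max_left 0 (D / (1 - (c₁ + c₂)))
    linarith
  have hXD : D < (1 - (c₁ + c₂)) * X := by
    have h1 : D / (1 - (c₁ + c₂)) < X := by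
      have := le_max_right 0 (D / (1 - (c₁ + c₂)))
      linarith
    rw [div_lt_iff₀ hpos] at h1
    linarith
  have hs1 : 1 < 1 + Real.exp (-X) := by linarith [Real.exp_pos (-X)]
  have hs2 : 1 + Real.exp (-X) ≤ 2 := by
    have : Real.exp (-X) ≤ 1 := Real.exp_le_one_iff.mpr (by linarith)
    linarith
  have hlog : Real.log (1 / (1 + Real.exp (-X) - 1)) = X := by
    rw [add_sub_cancel_left, one_div, ← Real.exp_neg, neg_neg, Real.log_exp]
  have h1 := hub _ hs1 hs2
  have h2 := abs_le.mp (hC₀ _ hs1 hs2)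
  rw [hlog] at h1 h2
  nlinarith [h2.1, h1]

end Abstract

section Split

variable (K M : Type*) [Field K] [NumberField K] [Field M] [NumberField M] [Algebra K M]

/-- The prime `v` of `K` splits completely in `M`: every prime of `M` above `v` has ramification
index and inertia degree `1`. -/
def SplitsCompletely (v : HeightOneSpectrum (𝓞 K)) : Prop :=
  ∀ w : HeightOneSpectrum (𝓞 M), w.asIdeal.under (𝓞 K) = v.asIdeal →
    w.asIdeal.ramificationIdx (𝓞 K) = 1 ∧ w.asIdeal.inertiaDeg (𝓞 K) = 1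

/-- The primes of `M` above a prime `v` of `K`. -/
def aboveSet (v : HeightOneSpectrum (𝓞 K)) : Set (HeightOneSpectrum (𝓞 M)) :=
  {w | w.asIdeal.under (𝓞 K) = v.asIdeal}

omit [NumberField M] in
theorem asIdeal_injective :
    Function.Injective (fun w : HeightOneSpectrum (𝓞 M) ↦ w.asIdeal) :=
  fun _ _ h ↦ HeightOneSpectrum.ext h

theorem image_aboveSet (v : HeightOneSpectrum (𝓞 K)) :
    (fun w : HeightOneSpectrum (𝓞 M) ↦ w.asIdeal) '' aboveSet K M v =
      v.asIdeal.primesOver (𝓞 M) := by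
  ext Q
  constructor
  · rintro ⟨w, hw, rfl⟩
    exact ⟨w.isPrime, ⟨hw.symm⟩⟩
  · rintro ⟨hQ, hQv⟩
    have hne : Q ≠ ⊥ := Ideal.ne_bot_of_liesOver_of_ne_bot v.ne_bot Q
    exact ⟨⟨Q, hQ, hne⟩, hQv.over.symm, rfl⟩

theorem aboveSet_finite (v : HeightOneSpectrum (𝓞 K)) : (aboveSet K M v).Finite := by
  have h : (v.asIdeal.primesOver (𝓞 M)).Finite := Algebra.QuasiFinite.finite_primesOver _
  rw [← image_aboveSet] at h
  exact h.of_finite_image (asIdeal_injective M).injOn

theorem absNorm_eq_of_split {v : HeightOneSpectrum (𝓞 K)} (hv : SplitsCompletely K M v)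
    {w : HeightOneSpectrum (𝓞 M)} (hw : w ∈ aboveSet K M v) :
    absNorm w.asIdeal = absNorm v.asIdeal := by
  have : w.asIdeal.LiesOver v.asIdeal := ⟨hw.symm⟩
  have h := Ideal.absNorm_pow_inertiaDeg v.asIdeal w.asIdeal
  rw [(hv w hw).2, pow_one] at h
  exact h.symm

theorem ncard_aboveSet_of_split {v : HeightOneSpectrum (𝓞 K)} (hv : SplitsCompletely K M v) :
    (aboveSet K M v).ncard = Module.finrank K M := by
  classical
  have hfin : (v.asIdeal.primesOver (𝓞 M)).Finite := Algebra.QuasiFinite.finite_primesOver _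
  let _ : Fintype (v.asIdeal.primesOver (𝓞 M)) := hfin.fintype
  have hsum := Ideal.sum_ramification_inertia_eq_finrank v.asIdeal (𝓞 M)
  have hterm : ∀ q : v.asIdeal.primesOver (𝓞 M),
      q.1.ramificationIdx (𝓞 K) * q.1.inertiaDeg (𝓞 K) = 1 := by
    rintro ⟨Q, hQ, hQv⟩
    have hne : Q ≠ ⊥ := Ideal.ne_bot_of_liesOver_of_ne_bot v.ne_bot Q
    have := hv ⟨Q, hQ, hne⟩ hQv.over.symm
    simp only [this.1, this.2, mul_one]
  rw [Finset.sum_congr rfl (fun q _ ↦ hterm q), Finset.sum_const, Finset.card_univ, smul_eq_mul,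
    mul_one, Set.fintypeCard_eq_ncard, ← image_aboveSet,
    Set.ncard_image_of_injective _ (asIdeal_injective M),
    ← IsFractionRing.finrank_eq (𝓞 K) K (𝓞 M) M] at hsum
  exact hsum

/-- The primes of `K` which split completely in `M` carry at most `1/[M : K]` of the prime zeta
sum. -/
theorem exists_sum_split_le :
    ∃ C : ℝ, ∀ s : ℝ, 1 < s → s ≤ 2 → ∀ U : Finset (HeightOneSpectrum (𝓞 K)),
      (∀ v ∈ U, v ∈ {v | SplitsCompletely K M v}) →
        ∑ v ∈ U, (absNorm v.asIdeal : ℝ) ^ (-s) ≤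
          (1 / (Module.finrank K M : ℝ)) * Real.log (1 / (s - 1)) + C := by
  classical
  obtain ⟨C, hC⟩ := H81.exists_sum_prime_le M
  have hm : 0 < (Module.finrank K M : ℝ) := by exact_mod_cast Module.finrank_pos
  refine ⟨C / Module.finrank K M, fun s hs1 hs2 U hU ↦ ?_⟩
  set W : Finset (HeightOneSpectrum (𝓞 M)) := U.biUnion fun v ↦ (aboveSet_finite K M v).toFinset
    with hW
  have hdisj : ∀ v ∈ U, ∀ v' ∈ U, v ≠ v' →
      Disjoint (aboveSet_finite K M v).toFinset (aboveSet_finite K M v').toFinset := by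
    intro v _ v' _ hvv'
    rw [Finset.disjoint_left]
    intro w hw hw'
    rw [Set.Finite.mem_toFinset] at hw hw'
    exact hvv' (HeightOneSpectrum.ext (hw.symm.trans hw'))
  have hfib : ∀ v ∈ U, ∑ w ∈ (aboveSet_finite K M v).toFinset, (absNorm w.asIdeal : ℝ) ^ (-s) =
      (Module.finrank K M : ℝ) * (absNorm v.asIdeal : ℝ) ^ (-s) := by
    intro v hv
    have hsplit : SplitsCompletely K M v := hU v hv
    rw [Finset.sum_congr rfl (fun w hw ↦ by
      rw [absNorm_eq_of_split K M hsplit ((Set.Finite.mem_toFinset _).mp hw)]),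
      Finset.sum_const, nsmul_eq_mul,
      ← Set.ncard_eq_toFinset_card (aboveSet K M v) (aboveSet_finite K M v),
      ncard_aboveSet_of_split K M hsplit]
  have hsum : ∑ w ∈ W, (absNorm w.asIdeal : ℝ) ^ (-s) =
      (Module.finrank K M : ℝ) * ∑ v ∈ U, (absNorm v.asIdeal : ℝ) ^ (-s) := by
    rw [hW, Finset.sum_biUnion hdisj, Finset.mul_sum]
    exact Finset.sum_congr rfl hfib
  have hle := hC s hs1 hs2 W
  rw [hsum] at hle
  have : ∑ v ∈ U, (absNorm v.asIdeal : ℝ) ^ (-s) ≤
      (Real.log (1 / (s - 1)) + C) / Module.finrank K M := by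
    rw [le_div_iff₀ hm]
    linarith
  calc ∑ v ∈ U, (absNorm v.asIdeal : ℝ) ^ (-s)
      ≤ (Real.log (1 / (s - 1)) + C) / Module.finrank K M := this
    _ = 1 / (Module.finrank K M : ℝ) * Real.log (1 / (s - 1)) + C / Module.finrank K M := by ring

end Split

section Main

variable (K : Type*) [Field K] [NumberField K]

/-- **Degree-one primes not splitting completely, one field.**  If `2 ≤ [M : K]`, then outside
every finite set there is a prime of `K` of prime norm which does not split completely in `M`. -/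
theorem exists_degOne_not_split_one (M : Type*) [Field M] [NumberField M] [Algebra K M]
    (hM : 2 ≤ Module.finrank K M) (T : Finset (HeightOneSpectrum (𝓞 K))) :
    ∃ v : HeightOneSpectrum (𝓞 K), v ∉ T ∧ (absNorm v.asIdeal).Prime ∧
      ¬ SplitsCompletely K M v := by
  have hm : (2 : ℝ) ≤ (Module.finrank K M : ℝ) := by exact_mod_cast hM
  have hc : 1 / (Module.finrank K M : ℝ) + 0 < 1 := by
    rw [add_zero, div_lt_one (by linarith)]
    linarith
  obtain ⟨v, hvT, hvp, hv1, -⟩ := exists_degOne_not_mem K {v | SplitsCompletely K M v} ∅ _ 0 hc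
    (exists_sum_split_le K M)
    ⟨0, fun s _ _ U hU ↦ by
      have : U = ∅ := Finset.eq_empty_of_forall_notMem fun v hv ↦ hU v hv
      simp [this]⟩ T
  exact ⟨v, hvT, hvp, hv1⟩

/-- **Degree-one primes not splitting completely, two fields.**  If
`1/[M₁ : K] + 1/[M₂ : K] < 1`, then outside every finite set there is a prime of `K` of prime
norm which splits completely neither in `M₁` nor in `M₂`. -/
theorem exists_degOne_not_split (M₁ M₂ : Type*) [Field M₁] [NumberField M₁] [Algebra K M₁]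
    [Field M₂] [NumberField M₂] [Algebra K M₂]
    (h : 1 / (Module.finrank K M₁ : ℝ) + 1 / (Module.finrank K M₂ : ℝ) < 1)
    (T : Finset (HeightOneSpectrum (𝓞 K))) :
    ∃ v : HeightOneSpectrum (𝓞 K), v ∉ T ∧ (absNorm v.asIdeal).Prime ∧
      ¬ SplitsCompletely K M₁ v ∧ ¬ SplitsCompletely K M₂ v :=
  exists_degOne_not_mem K {v | SplitsCompletely K M₁ v} {v | SplitsCompletely K M₂ v} _ _ h
    (exists_sum_split_le K M₁) (exists_sum_split_le K M₂) T

end Main

end Fermat.Agent.S41.H10
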