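import Mathlib
import Fermat.Agent.S41.H10.DegOneSplit

/-!
# S41 / unit U7, leaf NOSPLIT (helper10)

`exists_degOne_no_degOne_above`: let `K`, `M` be number fields, `ι : 𝓞 K →+* 𝓞 M` a ring
homomorphism and `e` a ring automorphism of `𝓞 M` of prime order `r` fixing `ι (𝓞 K)` pointwise.
Then outside every finite set of norms there is a prime `v` of `K` of prime norm such that no prime
of `M` above `v` (through `ι`) has prime norm.

Proof (no Chebotarev): put `δ = e θ - θ ≠ 0`.  A prime `w` of `M` of prime norm `l` with `δ ∉ w`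
is not stable under `e` (otherwise `e` induces the identity on `𝓞 M / w`, a ring with `l`
elements, and `δ ∈ w`), so, `r` being prime, its `r` twists `w, e w, …` are pairwise distinct
primes of the same norm over the same prime of `K`.  Hence the primes `v` of `K` of prime norm
below such a `w` carry at most `(1/r) log (1/(s-1)) + O(1)` of the prime zeta sum of `K`, whereas
all primes of prime norm carry `log (1/(s-1)) + O(1)` (landed `S14/H81`, through
`exists_degOne_not_mem`).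
-/

set_option autoImplicit false

open Filter Topology NumberField Ideal nonZeroDivisors IsDedekindDomain

namespace Fermat.Agent.S41.H10

open Fermat.Agent.S14

section Twist

variable {M : Type*} [Field M] [NumberField M]

/-- Twist of a height-one prime by a ring automorphism: `x ∈ twist e w ↔ e x ∈ w`. -/
def twist (e : 𝓞 M ≃+* 𝓞 M) (w : HeightOneSpectrum (𝓞 M)) : HeightOneSpectrum (𝓞 M) where
  asIdeal := w.asIdeal.comap (e : 𝓞 M →+* 𝓞 M)
  isPrime := Ideal.comap_isPrime _ _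
  ne_bot := by
    obtain ⟨x, hx, hx0⟩ := Submodule.exists_mem_ne_zero_of_ne_bot w.ne_bot
    intro h
    have hmem : e.symm x ∈ w.asIdeal.comap (e : 𝓞 M →+* 𝓞 M) := by
      rw [Ideal.mem_comap]
      simpa using hx
    rw [h, Ideal.mem_bot] at hmem
    exact hx0 (by simpa using hmem)

omit [NumberField M] in
theorem mem_twist (e : 𝓞 M ≃+* 𝓞 M) (w : HeightOneSpectrum (𝓞 M)) (x : 𝓞 M) :
    x ∈ (twist e w).asIdeal ↔ e x ∈ w.asIdeal := Iff.rfl

theorem mem_twist_iterate (e : 𝓞 M ≃+* 𝓞 M) (j : ℕ) (w : HeightOneSpectrum (𝓞 M)) (x : 𝓞 M) :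
    x ∈ ((twist e)^[j] w).asIdeal ↔ e^[j] x ∈ w.asIdeal := by
  induction j generalizing w with
  | zero => rfl
  | succ j ih =>
    rw [Function.iterate_succ_apply, ih, mem_twist, Function.iterate_succ_apply']

theorem absNorm_twist (e : 𝓞 M ≃+* 𝓞 M) (w : HeightOneSpectrum (𝓞 M)) :
    absNorm (twist e w).asIdeal = absNorm w.asIdeal := by
  have h : w.asIdeal = ((twist e w).asIdeal).map (e : 𝓞 M →+* 𝓞 M) :=
    (Ideal.map_comap_of_surjective _ e.surjective _).symm
  rw [Ideal.absNorm_apply, Ideal.absNorm_apply, Submodule.cardQuot_apply,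
    Submodule.cardQuot_apply]
  exact Nat.card_congr (Ideal.quotientEquiv _ _ e h).toEquiv

theorem absNorm_twist_iterate (e : 𝓞 M ≃+* 𝓞 M) (j : ℕ) (w : HeightOneSpectrum (𝓞 M)) :
    absNorm ((twist e)^[j] w).asIdeal = absNorm w.asIdeal := by
  induction j generalizing w with
  | zero => rfl
  | succ j ih => rw [Function.iterate_succ_apply, ih, absNorm_twist]

theorem comap_twist {K : Type*} [Field K] [NumberField K] (ι : 𝓞 K →+* 𝓞 M)
    (e : 𝓞 M ≃+* 𝓞 M) (hι : ∀ x, e (ι x) = ι x) (w : HeightOneSpectrum (𝓞 M)) :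
    (twist e w).asIdeal.comap ι = w.asIdeal.comap ι := by
  ext x
  rw [Ideal.mem_comap, Ideal.mem_comap, mem_twist, hι]

theorem comap_twist_iterate {K : Type*} [Field K] [NumberField K] (ι : 𝓞 K →+* 𝓞 M)
    (e : 𝓞 M ≃+* 𝓞 M) (hι : ∀ x, e (ι x) = ι x) (j : ℕ) (w : HeightOneSpectrum (𝓞 M)) :
    ((twist e)^[j] w).asIdeal.comap ι = w.asIdeal.comap ι := by
  induction j generalizing w with
  | zero => rfl
  | succ j ih => rw [Function.iterate_succ_apply, ih, comap_twist ι e hι]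

/-- If two of the first `r` twists of `w` coincide (`r` prime, `e ^ r = 1`), then `w` is stable
under `e`. -/
theorem map_mem_of_twist_iterate_eq (e : 𝓞 M ≃+* 𝓞 M) {r : ℕ} (hr : r.Prime)
    (her : ∀ y, e^[r] y = y) (w : HeightOneSpectrum (𝓞 M)) {i j : ℕ} (hij : i < j) (hj : j < r)
    (h : (twist e)^[i] w = (twist e)^[j] w) : ∀ y ∈ w.asIdeal, e y ∈ w.asIdeal := by
  have hd : ∀ y, y ∈ w.asIdeal → e^[j - i] y ∈ w.asIdeal := by
    intro y hy
    obtain ⟨x, rfl⟩ : ∃ x, e^[i] x = y := (e.surjective.iterate i) y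
    have h1 : x ∈ ((twist e)^[i] w).asIdeal := (mem_twist_iterate e i w x).mpr hy
    rw [h] at h1
    have h2 := (mem_twist_iterate e j w x).mp h1
    rwa [← Function.iterate_add_apply, Nat.sub_add_cancel hij.le]
  have hdm : ∀ m : ℕ, ∀ y, y ∈ w.asIdeal → e^[(j - i) * m] y ∈ w.asIdeal := by
    intro m
    induction m with
    | zero => intro y hy; simpa using hy
    | succ m ih =>
      intro y hy
      rw [Nat.mul_succ, Function.iterate_add_apply]
      exact ih _ (hd y hy)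
  have hcop : Nat.Coprime (j - i) r := by
    rw [Nat.coprime_comm, Nat.Prime.coprime_iff_not_dvd hr]
    intro hdvd
    have := Nat.le_of_dvd (by omega) hdvd
    omega
  obtain ⟨m, -, hm⟩ := Nat.exists_mul_mod_eq_one_of_coprime hcop hr.one_lt
  have hq : (j - i) * m = 1 + r * ((j - i) * m / r) := by
    have := Nat.div_add_mod ((j - i) * m) r
    rw [hm] at this
    rw [add_comm]
    exact this.symm
  have hfix : ∀ (q : ℕ) (y : 𝓞 M), e^[r * q] y = y := by
    intro q y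
    rw [Function.iterate_mul]
    exact Function.iterate_fixed (her y) q
  intro y hy
  have h3 := hdm m y hy
  rw [hq, Function.iterate_add_apply, hfix, Function.iterate_one] at h3
  exact h3

/-- A prime of prime norm which is stable under `e` contains `e θ - θ` for every `θ`. -/
theorem sub_mem_of_stable (e : 𝓞 M ≃+* 𝓞 M) (w : HeightOneSpectrum (𝓞 M))
    (hw : (absNorm w.asIdeal).Prime) (hst : ∀ y ∈ w.asIdeal, e y ∈ w.asIdeal) (θ : 𝓞 M) :
    e θ - θ ∈ w.asIdeal := by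
  have : Fact (absNorm w.asIdeal).Prime := ⟨hw⟩
  have hcard : Nat.card (𝓞 M ⧸ w.asIdeal) = absNorm w.asIdeal := by
    rw [Ideal.absNorm_apply, Submodule.cardQuot_apply]
  have h1 : (1 : 𝓞 M ⧸ w.asIdeal) ≠ 0 := one_ne_zero
  obtain ⟨n, hn⟩ := AddSubgroup.mem_zmultiples_iff.mp
    (mem_zmultiples_of_prime_card hcard h1 (g' := Ideal.Quotient.mk w.asIdeal θ))
  have h2 : θ - (n : 𝓞 M) ∈ w.asIdeal := by
    rw [← Ideal.Quotient.eq_zero_iff_mem, map_sub, map_intCast, ← hn]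
    simp
  have h3 := hst _ h2
  rw [map_sub, map_intCast] at h3
  have h4 : e θ - θ = (e θ - (n : 𝓞 M)) - (θ - (n : 𝓞 M)) := by ring
  rw [h4]
  exact sub_mem h3 h2

/-- A prime of prime norm above a prime of prime norm has the same norm. -/
theorem absNorm_eq_of_comap_eq {K : Type*} [Field K] [NumberField K] (ι : 𝓞 K →+* 𝓞 M)
    (v : HeightOneSpectrum (𝓞 K)) (w : HeightOneSpectrum (𝓞 M))
    (hwv : w.asIdeal.comap ι = v.asIdeal) (hv : (absNorm v.asIdeal).Prime)
    (hw : (absNorm w.asIdeal).Prime) : absNorm w.asIdeal = absNorm v.asIdeal := by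
  by_contra hne
  have hcop : Nat.Coprime (absNorm w.asIdeal) (absNorm v.asIdeal) :=
    (Nat.coprime_primes hw hv).mpr hne
  have h1 : ((absNorm w.asIdeal : ℕ) : 𝓞 M) ∈ w.asIdeal := Ideal.absNorm_mem _
  have h2 : ((absNorm v.asIdeal : ℕ) : 𝓞 M) ∈ w.asIdeal := by
    have h : ((absNorm v.asIdeal : ℕ) : 𝓞 K) ∈ w.asIdeal.comap ι := by
      rw [hwv]
      exact Ideal.absNorm_mem _
    rw [Ideal.mem_comap, map_natCast] at h
    exact h
  obtain ⟨a, b, hab⟩ := Nat.isCoprime_iff_coprime.mpr hcop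
  have h3 : (1 : 𝓞 M) ∈ w.asIdeal := by
    have h : (1 : 𝓞 M) = (a : 𝓞 M) * ((absNorm w.asIdeal : ℕ) : 𝓞 M) +
        (b : 𝓞 M) * ((absNorm v.asIdeal : ℕ) : 𝓞 M) := by
      have := congrArg (Int.cast : ℤ → 𝓞 M) hab
      push_cast at this
      exact this.symm
    rw [h]
    exact add_mem (Ideal.mul_mem_left _ _ h1) (Ideal.mul_mem_left _ _ h2)
  exact w.isPrime.ne_top ((Ideal.eq_top_iff_one _).mpr h3)

end Twist

section Density

variable {K M : Type*} [Field K] [NumberField K] [Field M] [NumberField M]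

/-- The primes of `K` of prime norm lying below a prime `w` of `M` of prime norm which does not
contain `δ = e θ - θ` carry at most `1/r` of the prime zeta sum. -/
theorem exists_sum_le_of_twist (ι : 𝓞 K →+* 𝓞 M) (e : 𝓞 M ≃+* 𝓞 M) (r : ℕ) (hr : r.Prime)
    (hι : ∀ x, e (ι x) = ι x) (her : ∀ y, e^[r] y = y) (δ : 𝓞 M) (hδ : ∃ θ, δ = e θ - θ) :
    ∃ C : ℝ, ∀ s : ℝ, 1 < s → s ≤ 2 → ∀ U : Finset (HeightOneSpectrum (𝓞 K)),
      (∀ v ∈ U, v ∈ {v : HeightOneSpectrum (𝓞 K) | (absNorm v.asIdeal).Prime ∧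
        ∃ w : HeightOneSpectrum (𝓞 M), w.asIdeal.comap ι = v.asIdeal ∧
          (absNorm w.asIdeal).Prime ∧ δ ∉ w.asIdeal}) →
        ∑ v ∈ U, (absNorm v.asIdeal : ℝ) ^ (-s) ≤ (1 / (r : ℝ)) * Real.log (1 / (s - 1)) + C := by
  classical
  obtain ⟨C, hC⟩ := H81.exists_sum_prime_le M
  have hr0 : 0 < (r : ℝ) := by exact_mod_cast hr.pos
  refine ⟨C / r, fun s hs1 hs2 U hU ↦ ?_⟩
  let wit : {v // v ∈ U} → HeightOneSpectrum (𝓞 M) := fun v ↦ (hU v.1 v.2).2.choose
  have hwit : ∀ v : {v // v ∈ U}, (wit v).asIdeal.comap ι = v.1.asIdeal ∧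
      (absNorm (wit v).asIdeal).Prime ∧ δ ∉ (wit v).asIdeal :=
    fun v ↦ (hU v.1 v.2).2.choose_spec
  let F : {v // v ∈ U} → Finset (HeightOneSpectrum (𝓞 M)) :=
    fun v ↦ (Finset.range r).image fun j ↦ (twist e)^[j] (wit v)
  have hover : ∀ v, ∀ w' ∈ F v, w'.asIdeal.comap ι = v.1.asIdeal := by
    intro v w' hw'
    obtain ⟨j, -, rfl⟩ := Finset.mem_image.mp hw'
    rw [comap_twist_iterate ι e hι, (hwit v).1]
  have hnorm : ∀ v, ∀ w' ∈ F v, absNorm w'.asIdeal = absNorm v.1.asIdeal := by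
    intro v w' hw'
    obtain ⟨j, -, rfl⟩ := Finset.mem_image.mp hw'
    rw [absNorm_twist_iterate]
    exact absNorm_eq_of_comap_eq ι v.1 (wit v) (hwit v).1 (hU v.1 v.2).1 (hwit v).2.1
  have hinj : ∀ v, Set.InjOn (fun j ↦ (twist e)^[j] (wit v)) (Finset.range r : Set ℕ) := by
    intro v
    have key : ∀ i j, i < j → j < r → (twist e)^[i] (wit v) ≠ (twist e)^[j] (wit v) := by
      intro i j hij hj h
      obtain ⟨θ, rfl⟩ := hδ
      exact (hwit v).2.2 (sub_mem_of_stable e (wit v) (hwit v).2.1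
        (map_mem_of_twist_iterate_eq e hr her (wit v) hij hj h) θ)
    intro i hi j hj h
    simp only [Finset.coe_range, Set.mem_Iio] at hi hj
    by_contra hne
    rcases Nat.lt_or_gt_of_ne hne with h' | h'
    · exact key i j h' hj h
    · exact key j i h' hi h.symm
  have hcardsum : ∀ v, ∑ w' ∈ F v, (absNorm w'.asIdeal : ℝ) ^ (-s) =
      (r : ℝ) * (absNorm v.1.asIdeal : ℝ) ^ (-s) := by
    intro v
    rw [Finset.sum_congr rfl (fun w' hw' ↦ by rw [hnorm v w' hw']), Finset.sum_const,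
      nsmul_eq_mul, Finset.card_image_of_injOn (hinj v), Finset.card_range]
  have hdisj : ∀ v ∈ U.attach, ∀ v' ∈ U.attach, v ≠ v' → Disjoint (F v) (F v') := by
    intro v _ v' _ hvv'
    rw [Finset.disjoint_left]
    intro w' hw hw'
    exact hvv' (Subtype.ext (HeightOneSpectrum.ext
      ((hover v w' hw).symm.trans (hover v' w' hw'))))
  have hsum : ∑ w' ∈ U.attach.biUnion F, (absNorm w'.asIdeal : ℝ) ^ (-s) =
      (r : ℝ) * ∑ v ∈ U, (absNorm v.asIdeal : ℝ) ^ (-s) := by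
    rw [Finset.sum_biUnion hdisj, Finset.sum_congr rfl (fun v _ ↦ hcardsum v), ← Finset.mul_sum,
      Finset.sum_attach U (fun v ↦ (absNorm v.asIdeal : ℝ) ^ (-s))]
  have hle := hC s hs1 hs2 (U.attach.biUnion F)
  rw [hsum] at hle
  have hfin : ∑ v ∈ U, (absNorm v.asIdeal : ℝ) ^ (-s) ≤ (Real.log (1 / (s - 1)) + C) / r := by
    rw [le_div_iff₀ hr0]
    linarith
  calc ∑ v ∈ U, (absNorm v.asIdeal : ℝ) ^ (-s)
      ≤ (Real.log (1 / (s - 1)) + C) / r := hfin
    _ = 1 / (r : ℝ) * Real.log (1 / (s - 1)) + C / r := by ring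

theorem finite_absNorm_mem (S : Finset ℕ) :
    {v : HeightOneSpectrum (𝓞 K) | absNorm v.asIdeal ∈ S}.Finite := by
  have h : {v : HeightOneSpectrum (𝓞 K) | absNorm v.asIdeal ∈ S} =
      ⋃ n ∈ S, (fun v : HeightOneSpectrum (𝓞 K) ↦ v.asIdeal) ⁻¹' {I | absNorm I = n} := by
    ext v
    simp
  rw [h]
  exact Set.Finite.biUnion S.finite_toSet fun n _ ↦
    (Ideal.finite_setOfPred_absNorm_eq n).preimage (asIdeal_injective K).injOn

omit [NumberField K] in
theorem finite_below_mem (ι : 𝓞 K →+* 𝓞 M) {δ : 𝓞 M} (hδ : δ ≠ 0) :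
    {v : HeightOneSpectrum (𝓞 K) | ∃ w : HeightOneSpectrum (𝓞 M),
      w.asIdeal.comap ι = v.asIdeal ∧ δ ∈ w.asIdeal}.Finite := by
  have hfin : {w : HeightOneSpectrum (𝓞 M) | w.asIdeal ∣ Ideal.span {δ}}.Finite :=
    Ideal.finite_factors (by simpa [Ideal.zero_eq_bot, Ideal.span_singleton_eq_bot] using hδ)
  have hsub : {v : HeightOneSpectrum (𝓞 K) | ∃ w : HeightOneSpectrum (𝓞 M),
      w.asIdeal.comap ι = v.asIdeal ∧ δ ∈ w.asIdeal} ⊆
      ⋃ w ∈ {w : HeightOneSpectrum (𝓞 M) | w.asIdeal ∣ Ideal.span {δ}},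
        {v : HeightOneSpectrum (𝓞 K) | v.asIdeal = w.asIdeal.comap ι} := by
    rintro v ⟨w, hwv, hδw⟩
    simp only [Set.mem_iUnion, Set.mem_ofPred_eq]
    exact ⟨w, by rwa [Ideal.dvd_span_singleton], hwv.symm⟩
  refine (Set.Finite.biUnion hfin fun w _ ↦ ?_).subset hsub
  refine Set.Subsingleton.finite ?_
  intro v hv v' hv'
  exact HeightOneSpectrum.ext (hv.trans hv'.symm)

end Density

/-- **(NOSPLIT)** `K`, `M` number fields, `ι : 𝓞 K → 𝓞 M`, `e` an automorphism of `𝓞 M` of prime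
order `r` fixing `ι (𝓞 K)`: outside any finite set there is a prime `v` of `K` of prime norm such
that no prime of `M` above `v` has prime norm. -/
theorem exists_degOne_no_degOne_above (K M : Type*) [Field K] [NumberField K] [Field M]
    [NumberField M] (ι : 𝓞 K →+* 𝓞 M) (e : 𝓞 M ≃+* 𝓞 M) (r : ℕ) (hr : r.Prime)
    (hι : ∀ x, e (ι x) = ι x) (her : ∀ y, e^[r] y = y) (hne : ∃ θ, e θ ≠ θ) (S : Finset ℕ) :
    ∃ v : HeightOneSpectrum (𝓞 K), (absNorm v.asIdeal).Prime ∧ absNorm v.asIdeal ∉ S ∧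
      ∀ w : HeightOneSpectrum (𝓞 M), w.asIdeal.comap ι = v.asIdeal →
        ¬ (absNorm w.asIdeal).Prime := by
  classical
  obtain ⟨θ, hθ⟩ := hne
  have hδ : e θ - θ ≠ 0 := sub_ne_zero.mpr hθ
  have hfin := (finite_absNorm_mem (K := K) S).union (finite_below_mem ι hδ)
  have hr2 : (2 : ℝ) ≤ r := by exact_mod_cast hr.two_le
  have hc : 1 / (r : ℝ) + 0 < 1 := by
    rw [add_zero, div_lt_one (by linarith)]
    linarith
  obtain ⟨v, hvT, hvp, hv1, -⟩ := exists_degOne_not_mem K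
    {v : HeightOneSpectrum (𝓞 K) | (absNorm v.asIdeal).Prime ∧
      ∃ w : HeightOneSpectrum (𝓞 M), w.asIdeal.comap ι = v.asIdeal ∧
        (absNorm w.asIdeal).Prime ∧ e θ - θ ∉ w.asIdeal} ∅ _ 0 hc
    (exists_sum_le_of_twist ι e r hr hι her (e θ - θ) ⟨θ, rfl⟩)
    ⟨0, fun s _ _ U hU ↦ by
      have : U = ∅ := Finset.eq_empty_of_forall_notMem fun v hv ↦ hU v hv
      simp [this]⟩ hfin.toFinset
  rw [Set.Finite.mem_toFinset, Set.mem_union, not_or] at hvT
  exact ⟨v, hvp, hvT.1, fun w hw hwp ↦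
    hv1 ⟨hvp, w, hw, hwp, fun hδw ↦ hvT.2 ⟨w, hw, hδw⟩⟩⟩

end Fermat.Agent.S41.H10
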